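/-
helper78 — Program A (S29/S42), package (2) RIG, tool (AUT).

Automorphisms of an algebraically closed field `L` of infinite transcendence degree over `K`
moving a finite algebraically independent family to mutually independent copies.
-/
import Mathlib

set_option autoImplicit false

namespace Fermat.Agent.S42.H78

open MvPolynomial

section Autos

variable {K L : Type*} [Field K] [Field L] [Algebra K L] [IsAlgClosed L]

/-- The automorphism of `L` over `K` induced by a permutation of a transcendence basis. -/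
theorem exists_algEquiv_of_perm {ι : Type*} (v : ι → L) (hv : IsTranscendenceBasis K v)
    (π : Equiv.Perm ι) : ∃ σ : L ≃ₐ[K] L, ∀ i, σ (v i) = v (π i) := by
  classical
  letI := IsAlgClosed.isAlgClosure_of_transcendence_basis v hv
  let eπ : Algebra.adjoin K (Set.range v) ≃ₐ[K] Algebra.adjoin K (Set.range v) :=
    (hv.1.aevalEquiv.symm.trans (MvPolynomial.renameEquiv K π)).trans hv.1.aevalEquiv
  let σ₀ : L ≃+* L := IsAlgClosure.equivOfEquiv L L eπ.toRingEquiv
  have hσ₀ : ∀ a : Algebra.adjoin K (Set.range v),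
      σ₀ (algebraMap _ L a) = algebraMap _ L (eπ a) := fun a =>
    IsAlgClosure.equivOfEquiv_algebraMap L L eπ.toRingEquiv a
  refine ⟨AlgEquiv.ofRingEquiv (f := σ₀) ?_, ?_⟩
  · intro c
    have : algebraMap K L c =
        algebraMap (Algebra.adjoin K (Set.range v)) L (algebraMap K _ c) := rfl
    rw [this, hσ₀, AlgEquiv.commutes]
  · intro i
    have h1 : ∀ j, v j = algebraMap (Algebra.adjoin K (Set.range v)) L (hv.1.aevalEquiv (X j)) := by
      intro j
      rw [hv.1.algebraMap_aevalEquiv, aeval_X]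
    show σ₀ (v i) = v (π i)
    rw [h1 i, hσ₀, h1 (π i)]
    congr 1
    show hv.1.aevalEquiv (MvPolynomial.renameEquiv K π
      (hv.1.aevalEquiv.symm (hv.1.aevalEquiv (X i)))) = _
    rw [AlgEquiv.symm_apply_apply]
    simp

omit [IsAlgClosed L] in
/-- A transcendence basis of `L` over `K` is infinite as soon as `L` contains arbitrarily large
finite algebraically independent families. -/
theorem infinite_of_isTranscendenceBasis
    (htr : ∀ n : ℕ, ∃ t : Fin n → L, AlgebraicIndependent K t)
    {𝔅 : Set L} (h𝔅 : IsTranscendenceBasis K ((↑) : 𝔅 → L)) : 𝔅.Infinite := by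
  intro hfin
  obtain ⟨t, ht⟩ := htr (hfin.toFinset.card + 1)
  have h1 := ht.lift_cardinalMk_le_trdeg
  have h2 := h𝔅.cardinalMk_eq_trdeg
  rw [← h2] at h1
  have h3 : Cardinal.mk 𝔅 = (hfin.toFinset.card : Cardinal) := by
    rw [← Cardinal.mk_coe_finset]
    simp
  rw [h3] at h1
  simp only [Cardinal.mk_fin, Cardinal.lift_natCast, Nat.cast_le] at h1
  omega

/-- **(AUT)** `L` algebraically closed of infinite transcendence degree over `K`,
`s : Fin d → L` algebraically independent over `K`.  For every `m` there are automorphisms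
`σ 0, …, σ (m-1)` of `L` over `K` such that the `m * d` elements `σ i (s a)` are algebraically
independent over `K`. -/
theorem exists_indep_conjugates
    (htr : ∀ n : ℕ, ∃ t : Fin n → L, AlgebraicIndependent K t)
    {d : ℕ} (s : Fin d → L) (hs : AlgebraicIndependent K s) (m : ℕ) :
    ∃ σ : Fin m → (L ≃ₐ[K] L),
      AlgebraicIndependent K (fun x : Fin m × Fin d => σ x.1 (s x.2)) := by
  classical
  obtain ⟨𝔅, hs𝔅, h𝔅⟩ := exists_isTranscendenceBasis_superset (R := K) hs.to_subtype_range
  have hinf : (𝔅 \ Set.range s).Infinite :=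
    (infinite_of_isTranscendenceBasis htr h𝔅).sdiff (Set.finite_range s)
  haveI : Infinite ↥(𝔅 \ Set.range s) := hinf.to_subtype
  let f₀ : Fin m × Fin d ↪ ↥(𝔅 \ Set.range s) :=
    (finProdFinEquiv.toEmbedding.trans Fin.valEmbedding).trans (Infinite.natEmbedding _)
  -- the embedding `g : Fin m × Fin d → 𝔅`
  let g : Fin m × Fin d → 𝔅 := fun x => ⟨(f₀ x).1, (f₀ x).2.1⟩
  have hg : Function.Injective g := by
    intro x y hxy
    apply f₀.injective
    apply Subtype.ext
    exact congrArg (fun z : 𝔅 => (z : L)) hxy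
  -- the permutations
  have hperm : ∀ i : Fin m, ∃ π : Equiv.Perm 𝔅, ∀ a : Fin d,
      π ⟨s a, hs𝔅 ⟨a, rfl⟩⟩ = g (i, a) := by
    intro i
    let h : Fin d ⊕ Fin d → 𝔅 := Sum.elim (fun a => ⟨s a, hs𝔅 ⟨a, rfl⟩⟩) (fun a => g (i, a))
    have hh : Function.Injective h := by
      rintro (a | a) (b | b) hab
      · have : s a = s b := congrArg Subtype.val hab
        rw [hs.injective this]
      · exfalso
        have : s a = (f₀ (i, b)).1 := congrArg Subtype.val hab
        exact (f₀ (i, b)).2.2 ⟨a, this⟩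
      · exfalso
        have : (f₀ (i, a)).1 = s b := congrArg Subtype.val hab
        exact (f₀ (i, a)).2.2 ⟨b, this.symm⟩
      · have : g (i, a) = g (i, b) := hab
        have := hg this
        simp only [Prod.mk.injEq, true_and] at this
        rw [this]
    refine ⟨Equiv.Perm.viaEmbedding (Equiv.sumComm (Fin d) (Fin d)) ⟨h, hh⟩, fun a => ?_⟩
    exact Equiv.Perm.viaEmbedding_apply (Equiv.sumComm (Fin d) (Fin d)) ⟨h, hh⟩ (Sum.inl a)
  choose π hπ using hperm
  have hσ : ∀ i : Fin m, ∃ σ : L ≃ₐ[K] L, ∀ b : 𝔅, σ (b : L) = (π i b : L) := fun i =>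
    exists_algEquiv_of_perm ((↑) : 𝔅 → L) h𝔅 (π i)
  choose σ hσ' using hσ
  refine ⟨σ, ?_⟩
  have hfam : (fun x : Fin m × Fin d => σ x.1 (s x.2)) = (fun x => ((g x : 𝔅) : L)) := by
    funext x
    have := hσ' x.1 ⟨s x.2, hs𝔅 ⟨x.2, rfl⟩⟩
    rw [hπ] at this
    exact this
  rw [hfam]
  exact h𝔅.1.comp g hg

end Autos

end Fermat.Agent.S42.H78
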