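/-
helper78 — Program A (S29/S42), package (2) RIG, tool (SPEC).

Generic specialisation: `k ⊆ L` fields, `L` algebraically closed, `K₀ ⊆ k` an infinite subset,
`t : Fin n → L` algebraically independent over `k`, `T` a finite subset of `L`.  Then there are a
subring `R` of `L` containing `k`, `t`, `T` and the inverses of the elements of `T`, and a ring
homomorphism `φ : R → L` which is the identity on `k` and sends every `t i` into `K₀`.
-/
import Mathlib

set_option autoImplicit false

namespace Fermat.Agent.S42.H78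

open Polynomial

section Spec

variable {L : Type*} [Field L]

/-- A common nonzero denominator making finitely many algebraic elements integral. -/
theorem exists_common_integral_multiple {A₀ : Type*} [CommRing A₀] [IsDomain A₀] [Algebra A₀ L]
    (T : Set L) (hT : T.Finite) (h : ∀ a ∈ T, IsAlgebraic A₀ a) :
    ∃ g : A₀, g ≠ 0 ∧ ∀ a ∈ T, IsIntegral A₀ (g • a) := by
  classical
  induction T, hT using Set.Finite.induction_on with
  | empty => exact ⟨1, one_ne_zero, by simp⟩
  | @insert a S _ _ ih =>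
    obtain ⟨g, hg, hgS⟩ := ih fun b hb => h b (Set.mem_insert_of_mem _ hb)
    obtain ⟨y, hy, hya⟩ := (h a (Set.mem_insert _ _)).exists_integral_multiple
    refine ⟨y * g, mul_ne_zero hy hg, ?_⟩
    intro b hb
    rcases Set.mem_insert_iff.mp hb with rfl | hb
    · rw [mul_comm, mul_smul]
      exact hya.smul g
    · rw [mul_smul]
      exact (hgS b hb).smul y

theorem spec_core [IsAlgClosed L] {A₀ : Type*} [CommRing A₀] [IsDomain A₀] [Algebra A₀ L]
    (hinj : Function.Injective (algebraMap A₀ L)) (ψ₀ : A₀ →+* L) (g : A₀) (hg : ψ₀ g ≠ 0)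
    (T₁ : Set L) (hT₁ : ∀ a ∈ T₁, IsIntegral A₀ (g • a)) :
    ∃ (R : Subring L) (φ : R →+* L),
      (∀ x : A₀, ∃ h : algebraMap A₀ L x ∈ R, φ ⟨_, h⟩ = ψ₀ x) ∧ ∀ a ∈ T₁, a ∈ R := by
  classical
  have hg0 : g ≠ 0 := fun h => hg (by rw [h, map_zero])
  have hgL : IsUnit (algebraMap A₀ L g) :=
    IsUnit.mk0 _ (fun h => hg0 (hinj (by rw [h, map_zero])))
  -- the localisation away from `g`
  let Ag := Localization.Away g
  let jg : Ag →+* L := IsLocalization.Away.lift g hgL
  letI algAgL : Algebra Ag L := jg.toAlgebra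
  have hjg : ∀ x : A₀, algebraMap Ag L (algebraMap A₀ Ag x) = algebraMap A₀ L x := fun x =>
    IsLocalization.Away.lift_eq g hgL x
  haveI : IsScalarTower A₀ Ag L := IsScalarTower.of_algebraMap_eq fun x => (hjg x).symm
  have hjinj : Function.Injective (algebraMap Ag L) := by
    show Function.Injective (IsLocalization.lift (M := Submonoid.powers g) _)
    rw [IsLocalization.lift_injective_iff]
    intro x y
    constructor
    · intro h
      have := congrArg (algebraMap Ag L) h
      rwa [hjg, hjg] at this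
    · intro h
      rw [hinj h]
  let ψ : Ag →+* L := IsLocalization.Away.lift g (IsUnit.mk0 _ hg)
  have hψ : ∀ x : A₀, ψ (algebraMap A₀ Ag x) = ψ₀ x := fun x =>
    IsLocalization.Away.lift_eq g (IsUnit.mk0 _ hg) x
  -- the integral extension
  let R' : Subalgebra Ag L := Algebra.adjoin Ag T₁
  have hint : ∀ a ∈ T₁, IsIntegral Ag a := by
    intro a ha
    have h1 : IsIntegral Ag (g • a) := (hT₁ a ha).tower_top
    have h2 : a = algebraMap Ag L (IsLocalization.Away.invSelf g) * (g • a) := by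
      rw [Algebra.smul_def, ← mul_assoc, ← hjg, ← map_mul, mul_comm (IsLocalization.Away.invSelf g),
        IsLocalization.Away.mul_invSelf, map_one, one_mul]
    rw [h2]
    exact isIntegral_algebraMap.mul h1
  haveI : Algebra.IsIntegral Ag R' := Algebra.IsIntegral.adjoin hint
  have hRinj : Function.Injective (algebraMap Ag R') := by
    intro x y h
    apply hjinj
    have := congrArg (algebraMap R' L) h
    rwa [← IsScalarTower.algebraMap_apply, ← IsScalarTower.algebraMap_apply] at this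
  -- the prime of the specialisation and a prime above it
  let 𝔭 : Ideal Ag := RingHom.ker ψ
  haveI : 𝔭.IsPrime := RingHom.ker_isPrime ψ
  obtain ⟨Q, -, hQprime, hQ⟩ := Ideal.exists_ideal_over_prime_of_isIntegral 𝔭 (⊥ : Ideal R') (by
    intro x hx
    rw [Ideal.mem_comap, Ideal.mem_bot] at hx
    have : x = 0 := hRinj (by rw [hx, map_zero])
    rw [this]; exact 𝔭.zero_mem)
  haveI := hQprime
  -- `L` as an algebra over `D := Ag ⧸ Q.comap _` through `ψ`
  let ψD : (Ag ⧸ Q.comap (algebraMap Ag R')) →+* L :=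
    Ideal.Quotient.lift _ ψ (fun x hx => by
      have : x ∈ 𝔭 := hQ ▸ hx
      exact this)
  have hψD : Function.Injective ψD := by
    apply RingHom.lift_injective_of_ker_le_ideal
    rw [hQ]
  letI algDL : Algebra (Ag ⧸ Q.comap (algebraMap Ag R')) L := ψD.toAlgebra
  haveI : FaithfulSMul (Ag ⧸ Q.comap (algebraMap Ag R')) L :=
    (faithfulSMul_iff_algebraMap_injective _ _).mpr hψD
  haveI : FaithfulSMul (Ag ⧸ Q.comap (algebraMap Ag R')) (R' ⧸ Q) :=
    (faithfulSMul_iff_algebraMap_injective _ _).mpr Ideal.algebraMap_quotient_injective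
  haveI : (Q.comap (algebraMap Ag R')).IsPrime := Ideal.comap_isPrime _ _
  haveI : IsDomain (Ag ⧸ Q.comap (algebraMap Ag R')) := Ideal.Quotient.isDomain _
  haveI : IsDomain (R' ⧸ Q) := Ideal.Quotient.isDomain _
  haveI : Module.IsTorsionFree (Ag ⧸ Q.comap (algebraMap Ag R')) (R' ⧸ Q) :=
    FaithfulSMul.to_isTorsionFree _ _
  haveI : Module.IsTorsionFree (Ag ⧸ Q.comap (algebraMap Ag R')) L :=
    FaithfulSMul.to_isTorsionFree _ _
  haveI : Algebra.IsIntegral (Ag ⧸ Q.comap (algebraMap Ag R')) (R' ⧸ Q) :=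
    Algebra.IsIntegral.quotient
  haveI : Algebra.IsAlgebraic (Ag ⧸ Q.comap (algebraMap Ag R')) (R' ⧸ Q) :=
    Algebra.IsIntegral.isAlgebraic
  let lft : (R' ⧸ Q) →ₐ[Ag ⧸ Q.comap (algebraMap Ag R')] L := IsAlgClosed.lift
  let φ' : R' →+* L := lft.toRingHom.comp (Ideal.Quotient.mk Q)
  have hφ' : ∀ x : Ag, φ' (algebraMap Ag R' x) = ψ x := by
    intro x
    have h1 : Ideal.Quotient.mk Q (algebraMap Ag R' x) =
        algebraMap (Ag ⧸ Q.comap (algebraMap Ag R')) (R' ⧸ Q) (Ideal.Quotient.mk _ x) := rfl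
    show lft (Ideal.Quotient.mk Q (algebraMap Ag R' x)) = ψ x
    rw [h1, lft.commutes]
    rfl
  let e : R'.toSubring →+* R' :=
    { toFun := fun x => ⟨x.1, x.2⟩
      map_one' := rfl
      map_mul' := fun _ _ => rfl
      map_zero' := rfl
      map_add' := fun _ _ => rfl }
  refine ⟨R'.toSubring, φ'.comp e, ?_, ?_⟩
  · intro x
    have hmem : algebraMap A₀ L x ∈ R' := by
      rw [← hjg]
      exact R'.algebraMap_mem _
    refine ⟨hmem, ?_⟩
    have h2 : e ⟨algebraMap A₀ L x, hmem⟩ = algebraMap Ag R' (algebraMap A₀ Ag x) :=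
      Subtype.ext (hjg x).symm
    show φ' (e ⟨algebraMap A₀ L x, hmem⟩) = ψ₀ x
    rw [h2, hφ', hψ]
  · intro a ha
    exact Algebra.subset_adjoin ha

/-- **(SPEC)** Generic specialisation.  `k ⊆ L` fields, `L` algebraically closed, `K₀ ⊆ k` an
infinite subset, `t : Fin n → L` algebraically independent over `k`, `T` a finite subset of `L`.
Then there are a subring `R` of `L` containing `k`, the `t i`, `T` and the inverses of the
elements of `T`, and a ring homomorphism `φ : R → L` which is the identity on `k` and sends every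
`t i` to (the image of) an element of `K₀`. -/
theorem exists_specialization {k : Type*} [Field k] [Algebra k L] [IsAlgClosed L]
    (K₀ : Set k) (hK₀ : K₀.Infinite) {n : ℕ}
    (t : Fin n → L) (ht : AlgebraicIndependent k t) (T : Finset L) :
    ∃ (R : Subring L) (φ : R →+* L),
      (∀ c : k, ∃ h : algebraMap k L c ∈ R, φ ⟨_, h⟩ = algebraMap k L c) ∧
      (∀ s ∈ T, s ∈ R) ∧ (∀ s ∈ T, s⁻¹ ∈ R) ∧
      (∀ i, ∃ h : t i ∈ R, ∃ a ∈ K₀, φ ⟨t i, h⟩ = algebraMap k L a) := by
  classical
  set T₁ : Set L := ((T : Set L) ∪ (fun s => s⁻¹) '' (T : Set L)) ∪ Set.range t with hT₁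
  have hT₁fin : T₁.Finite :=
    ((T.finite_toSet).union ((T.finite_toSet).image _)).union (Set.finite_range t)
  have hind : AlgebraicIndepOn k id (Set.range t) := ht.to_subtype_range
  obtain ⟨B, hB, htB⟩ :=
    (AlgebraicIndependent.matroid_indep_iff.mpr hind).subset_isBasis_of_subset
      (Set.subset_union_right : Set.range t ⊆ T₁)
  rw [AlgebraicIndependent.matroid_isBasis_iff] at hB
  obtain ⟨hBind, hBT, hBalg⟩ := hB
  have hBind' : AlgebraicIndependent k (Subtype.val : B → L) := hBind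
  have hrange : Set.range (Subtype.val : B → L) = B := Subtype.range_val
  have hBalg' : ∀ a ∈ T₁, IsAlgebraic (Algebra.adjoin k (Set.range (Subtype.val : B → L))) a := by
    rw [hrange]; exact hBalg
  obtain ⟨g, hg0, hgint⟩ := exists_common_integral_multiple T₁ hT₁fin hBalg'
  have hg' : hBind'.aevalEquiv.symm g ≠ 0 := by
    intro h
    apply hg0
    have := congrArg hBind'.aevalEquiv h
    rwa [AlgEquiv.apply_symm_apply, map_zero] at this
  obtain ⟨b₀, hb₀, hb₀g⟩ : ∃ b₀ : B → k, (∀ b, b₀ b ∈ K₀) ∧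
      MvPolynomial.eval b₀ (hBind'.aevalEquiv.symm g) ≠ 0 := by
    by_contra hcon
    push Not at hcon
    apply hg'
    apply MvPolynomial.funext_set (fun _ => K₀) (fun _ => hK₀)
    intro x hx
    rw [map_zero]
    exact hcon x (fun b => hx b (Set.mem_univ _))
  let ψ₀ : Algebra.adjoin k (Set.range (Subtype.val : B → L)) →+* L :=
    (algebraMap k L).comp ((MvPolynomial.eval b₀).comp
      (hBind'.aevalEquiv.symm : Algebra.adjoin k (Set.range (Subtype.val : B → L)) →+*
        MvPolynomial B k))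
  have hψ₀g : ψ₀ g ≠ 0 := by
    show algebraMap k L (MvPolynomial.eval b₀ (hBind'.aevalEquiv.symm g)) ≠ 0
    rw [Ne, map_eq_zero]
    exact hb₀g
  obtain ⟨R, φ, hφ, hT⟩ := spec_core (A₀ := Algebra.adjoin k (Set.range (Subtype.val : B → L)))
    Subtype.val_injective ψ₀ g hψ₀g T₁ hgint
  refine ⟨R, φ, ?_, ?_, ?_, ?_⟩
  · intro c
    obtain ⟨h, hh⟩ := hφ (algebraMap k _ c)
    refine ⟨h, ?_⟩
    refine hh.trans ?_
    show algebraMap k L (MvPolynomial.eval b₀ (hBind'.aevalEquiv.symm (algebraMap k _ c))) = _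
    rw [AlgEquiv.commutes, MvPolynomial.algebraMap_eq, MvPolynomial.eval_C]
  · intro s hs
    exact hT s (Or.inl (Or.inl hs))
  · intro s hs
    exact hT s⁻¹ (Or.inl (Or.inr ⟨s, hs, rfl⟩))
  · intro i
    have hi : t i ∈ B := htB ⟨i, rfl⟩
    obtain ⟨h, hh⟩ := hφ (hBind'.aevalEquiv (MvPolynomial.X ⟨t i, hi⟩))
    have hval : algebraMap (Algebra.adjoin k (Set.range (Subtype.val : B → L))) L
        (hBind'.aevalEquiv (MvPolynomial.X ⟨t i, hi⟩)) = t i := by
      rw [hBind'.algebraMap_aevalEquiv, MvPolynomial.aeval_X]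
    refine ⟨hval ▸ h, b₀ ⟨t i, hi⟩, hb₀ _, ?_⟩
    have : φ ⟨t i, hval ▸ h⟩ = φ ⟨_, h⟩ := by
      congr 1
      exact Subtype.ext hval.symm
    rw [this, hh]
    show algebraMap k L (MvPolynomial.eval b₀ (hBind'.aevalEquiv.symm
      (hBind'.aevalEquiv (MvPolynomial.X ⟨t i, hi⟩)))) = _
    rw [AlgEquiv.symm_apply_apply, MvPolynomial.eval_X]

end Spec

end Fermat.Agent.S42.H78
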