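/-
helper78 — Program A (S29/S42), package (2): RIG and KUMMER-INV in concrete Prelude form.

`rig`: `K ⊆ L` algebraically closed fields, `L` of infinite transcendence degree over `K`,
`f ≠ 0` in `laurentBaseChange L F₀`.  If the automorphisms of `L` over `K` can be coloured with
finitely many colours so that two automorphisms of the same colour move `f` to the same class
modulo `p`-th powers of `laurentBaseChange L F₀`, then `f = coeffMap ι u₀ * w ^ p` with
`u₀ ∈ laurentBaseChange K F₀` and `w ∈ laurentBaseChange L F₀`.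
-/
import Mathlib
import Fermat.Prelude.Def_ModularCurve_ArithmeticGalois
import Fermat.Agent.S42.H78.Spec
import Fermat.Agent.S42.H78.Autos

set_option autoImplicit false

namespace Fermat.Agent.S42.H78

open ModularCurve HahnSeries

noncomputable section

section Combo

variable {A A' : Type*} [CommRing A] [CommRing A']

/-- A finite combination `∑ i, l i * m i` of rational Laurent series with coefficients in `A`. -/
def combo (ρ : ℚ →+* A) {ι : Type} [Fintype ι] (l : ι → A) (m : ι → LaurentSeries ℚ) :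
    LaurentSeries A :=
  ∑ i, HahnSeries.single 0 (l i) * coeffMap ρ (m i)

theorem coeffMap_combo (ψ : A →+* A') (ρ : ℚ →+* A) (ρ' : ℚ →+* A') (h : ψ.comp ρ = ρ')
    {ι : Type} [Fintype ι] (l : ι → A) (m : ι → LaurentSeries ℚ) :
    coeffMap ψ (combo ρ l m) = combo ρ' (fun i => ψ (l i)) m := by
  unfold combo
  rw [map_sum]
  refine Finset.sum_congr rfl fun i _ => ?_
  rw [map_mul, coeffMap_single, coeffMap_coeffMap, h]

theorem coeffMap_injective {ψ : A →+* A'} (hψ : Function.Injective ψ) :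
    Function.Injective (coeffMap ψ) := by
  intro x y hxy
  ext k
  apply hψ
  have := congrArg (fun z => z.coeff k) hxy
  simpa using this

end Combo

section Span

variable (L : Type*) [Field L] [Algebra ℚ L] (F₀ : IntermediateField ℚ (LaurentSeries ℚ))

theorem combo_mem_laurentBaseChange {ι : Type} [Fintype ι] (l : ι → L) (m : ι → LaurentSeries ℚ)
    (hm : ∀ i, m i ∈ F₀) : combo (algebraMap ℚ L) l m ∈ laurentBaseChange L F₀ := by
  unfold combo
  refine sum_mem fun i _ => mul_mem ?_ ?_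
  · rw [← algebraMap_laurentSeries_eq_single]
    exact (laurentBaseChange L F₀).algebraMap_mem _
  · exact coeffEmb_mem_laurentBaseChange L (hm i)

theorem exists_combo_of_mem_adjoin {x : LaurentSeries L}
    (hx : x ∈ Algebra.adjoin L (⇑(coeffEmb L) '' (F₀ : Set (LaurentSeries ℚ)))) :
    ∃ (ι : Type) (_ : Fintype ι) (l : ι → L) (m : ι → LaurentSeries ℚ),
      (∀ i, m i ∈ F₀) ∧ x = combo (algebraMap ℚ L) l m := by
  induction hx using Algebra.adjoin_induction with
  | mem y hy =>
    obtain ⟨m, hm, rfl⟩ := hy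
    refine ⟨Unit, inferInstance, fun _ => 1, fun _ => m, fun _ => hm, ?_⟩
    simp [combo, coeffEmb]
  | algebraMap r =>
    refine ⟨Unit, inferInstance, fun _ => r, fun _ => 1, fun _ => F₀.one_mem, ?_⟩
    simp [combo, algebraMap_laurentSeries_eq_single]
  | add y z _ _ hy hz =>
    obtain ⟨ι, _, l, m, hm, rfl⟩ := hy
    obtain ⟨ι', _, l', m', hm', rfl⟩ := hz
    refine ⟨ι ⊕ ι', inferInstance, Sum.elim l l', Sum.elim m m', ?_, ?_⟩
    · rintro (i | i)
      · exact hm i
      · exact hm' i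
    · simp [combo, Fintype.sum_sum_type]
  | mul y z _ _ hy hz =>
    obtain ⟨ι, _, l, m, hm, rfl⟩ := hy
    obtain ⟨ι', _, l', m', hm', rfl⟩ := hz
    refine ⟨ι × ι', inferInstance, fun x => l x.1 * l' x.2, fun x => m x.1 * m' x.2, ?_, ?_⟩
    · intro x
      exact F₀.mul_mem (hm x.1) (hm' x.2)
    · unfold combo
      rw [Finset.sum_mul_sum, Fintype.sum_prod_type]
      refine Finset.sum_congr rfl fun i _ => Finset.sum_congr rfl fun j _ => ?_
      rw [mul_mul_mul_comm, HahnSeries.single_mul_single, add_zero, ← map_mul]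

/-- Every element of `laurentBaseChange L F₀` is a quotient of two combinations. -/
theorem exists_combo_div {x : LaurentSeries L} (hx : x ∈ laurentBaseChange L F₀) :
    ∃ (ι : Type) (_ : Fintype ι) (la : ι → L) (ma : ι → LaurentSeries ℚ)
      (ι' : Type) (_ : Fintype ι') (lb : ι' → L) (mb : ι' → LaurentSeries ℚ),
      (∀ i, ma i ∈ F₀) ∧ (∀ i, mb i ∈ F₀) ∧ combo (algebraMap ℚ L) lb mb ≠ 0 ∧
        x = combo (algebraMap ℚ L) la ma / combo (algebraMap ℚ L) lb mb := by
  obtain ⟨r, hr, s, hs, rfl⟩ := IntermediateField.mem_adjoin_iff_div.mp hx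
  obtain ⟨ι, _, la, ma, hma, rfl⟩ := exists_combo_of_mem_adjoin L F₀ hr
  by_cases hs0 : s = 0
  · refine ⟨Empty, inferInstance, Empty.elim, Empty.elim, Unit, inferInstance, fun _ => 1,
      fun _ => 1, fun i => i.elim, fun _ => F₀.one_mem, ?_, ?_⟩
    · simp [combo]
    · simp [combo, hs0]
  · obtain ⟨ι', _, lb, mb, hmb, rfl⟩ := exists_combo_of_mem_adjoin L F₀ hs
    exact ⟨ι, inferInstance, la, ma, ι', inferInstance, lb, mb, hma, hmb, hs0, rfl⟩

end Span

section AlgOver

variable {K L : Type*} [Field K] [Field L] [Algebra K L]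

theorem mem_range_of_isAlgebraic [IsAlgClosed K] {y : L} (hy : IsAlgebraic K y) :
    ∃ κ : K, algebraMap K L κ = y := by
  have hint : IsIntegral K y := hy.isIntegral
  have := minpoly.mem_range_of_degree_eq_one K y
    (IsAlgClosed.degree_eq_one_of_irreducible K (minpoly.irreducible hint))
  exact RingHom.mem_range.mp this

/-- `x` is algebraic over `K[s]`, witnessed by a polynomial `Q` with polynomial coefficients. -/
def AlgOver {d : ℕ} (s : Fin d → L) (x : L) (Q : Polynomial (MvPolynomial (Fin d) K)) : Prop :=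
  Q ≠ 0 ∧ Polynomial.eval₂
    ((MvPolynomial.aeval s : MvPolynomial (Fin d) K →ₐ[K] L) : MvPolynomial (Fin d) K →+* L) x Q = 0

theorem exists_algOver_of_isAlgebraic {d : ℕ} (s : Fin d → L) (hs : AlgebraicIndependent K s)
    {x : L} (hx : IsAlgebraic (Algebra.adjoin K (Set.range s)) x) :
    ∃ Q : Polynomial (MvPolynomial (Fin d) K), AlgOver s x Q := by
  obtain ⟨q, hq0, hq⟩ := hx
  refine ⟨q.map (hs.aevalEquiv.symm : Algebra.adjoin K (Set.range s) →+* MvPolynomial (Fin d) K),
    ?_, ?_⟩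
  · rw [Ne, Polynomial.map_eq_zero_iff (by exact hs.aevalEquiv.symm.injective)]
    exact hq0
  · rw [Polynomial.eval₂_map]
    have hcomp : ((MvPolynomial.aeval s : MvPolynomial (Fin d) K →ₐ[K] L) :
          MvPolynomial (Fin d) K →+* L).comp
        (hs.aevalEquiv.symm : Algebra.adjoin K (Set.range s) →+* MvPolynomial (Fin d) K) =
        algebraMap (Algebra.adjoin K (Set.range s)) L := by
      ext y
      exact hs.aeval_repr y
    rw [hcomp]
    exact hq

theorem AlgOver.map {d : ℕ} {s : Fin d → L} {x : L} {Q : Polynomial (MvPolynomial (Fin d) K)}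
    (h : AlgOver s x Q) (τ : L ≃ₐ[K] L) : AlgOver (fun a => τ (s a)) (τ x) Q := by
  refine ⟨h.1, ?_⟩
  have hcomp : ((MvPolynomial.aeval (fun a => τ (s a)) : MvPolynomial (Fin d) K →ₐ[K] L) :
      MvPolynomial (Fin d) K →+* L) =
      (τ : L →+* L).comp ((MvPolynomial.aeval s : MvPolynomial (Fin d) K →ₐ[K] L) :
        MvPolynomial (Fin d) K →+* L) := by
    apply MvPolynomial.ringHom_ext
    · intro c
      simp
    · intro a
      simp
  rw [hcomp, show τ x = (τ : L →+* L) x from rfl, ← Polynomial.hom_eval₂, h.2, map_zero]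

/-- The specialisation of an element algebraic over `K[s']` is in `K`. -/
theorem spec_algOver [IsAlgClosed K] {d : ℕ} (s' : Fin d → L) (hs' : AlgebraicIndependent K s')
    (x : L) (Q : Polynomial (MvPolynomial (Fin d) K)) (hQ : AlgOver s' x Q)
    (R : Subring L) (φ : R →+* L)
    (hK : ∀ c : K, ∃ h : algebraMap K L c ∈ R, φ ⟨_, h⟩ = algebraMap K L c)
    (β : Fin d → K) (hβ : ∀ a, ∃ h : s' a ∈ R, φ ⟨s' a, h⟩ = algebraMap K L (β a))
    (hx : x ∈ R) (hlead : (MvPolynomial.aeval s' Q.leadingCoeff : L)⁻¹ ∈ R) :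
    ∃ κ : K, φ ⟨x, hx⟩ = algebraMap K L κ := by
  classical
  let ιR : K →+* R := (algebraMap K L).codRestrict R fun c => (hK c).1
  let evR : MvPolynomial (Fin d) K →+* R := MvPolynomial.eval₂Hom ιR fun a => ⟨s' a, (hβ a).1⟩
  have h1 : R.subtype.comp evR =
      ((MvPolynomial.aeval s' : MvPolynomial (Fin d) K →ₐ[K] L) : MvPolynomial (Fin d) K →+* L) := by
    apply MvPolynomial.ringHom_ext
    · intro c
      simp [evR, ιR]
    · intro a
      simp [evR]
  have h2 : φ.comp evR = (algebraMap K L).comp (MvPolynomial.eval β) := by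
    apply MvPolynomial.ringHom_ext
    · intro c
      simp only [RingHom.coe_comp, Function.comp_apply, evR, MvPolynomial.coe_eval₂Hom,
        MvPolynomial.eval₂_C, MvPolynomial.eval_C]
      exact (hK c).2
    · intro a
      simp only [RingHom.coe_comp, Function.comp_apply, evR, MvPolynomial.coe_eval₂Hom,
        MvPolynomial.eval₂_X, MvPolynomial.eval_X]
      exact (hβ a).2
  -- the relation inside `R`
  have hrel : Polynomial.eval₂ evR ⟨x, hx⟩ Q = 0 := by
    apply Subtype.val_injective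
    have := hQ.2
    rw [← h1] at this
    rw [show ((Polynomial.eval₂ evR ⟨x, hx⟩ Q : R) : L) =
      R.subtype (Polynomial.eval₂ evR ⟨x, hx⟩ Q) from rfl, Polynomial.hom_eval₂]
    exact this
  have hrel' : Polynomial.eval₂ (algebraMap K L) (φ ⟨x, hx⟩) (Q.map (MvPolynomial.eval β)) = 0 := by
    rw [Polynomial.eval₂_map, ← h2, ← Polynomial.hom_eval₂, hrel, map_zero]
  -- the leading coefficient survives
  have hlc0 : (MvPolynomial.aeval s' Q.leadingCoeff : L) ≠ 0 := by
    intro h
    have h0 : (MvPolynomial.aeval s' Q.leadingCoeff : L) =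
        MvPolynomial.aeval s' (0 : MvPolynomial (Fin d) K) := by
      rw [h, map_zero]
    exact Polynomial.leadingCoeff_ne_zero.mpr hQ.1 (hs' h0)
  have hlc : MvPolynomial.eval β Q.leadingCoeff ≠ 0 := by
    intro h
    have h3 : (evR Q.leadingCoeff : L) = MvPolynomial.aeval s' Q.leadingCoeff :=
      RingHom.congr_fun h1 Q.leadingCoeff
    have h4 : evR Q.leadingCoeff * ⟨_, hlead⟩ = 1 := by
      apply Subtype.val_injective
      show (evR Q.leadingCoeff : L) * (MvPolynomial.aeval s' Q.leadingCoeff : L)⁻¹ = 1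
      rw [h3, mul_inv_cancel₀ hlc0]
    have h5 := congrArg φ h4
    rw [map_mul, map_one] at h5
    have h6 : φ (evR Q.leadingCoeff) = 0 := by
      have := congrArg (fun f => f Q.leadingCoeff) h2
      simp only [RingHom.coe_comp, Function.comp_apply] at this
      rw [this, h, map_zero]
    rw [h6, zero_mul] at h5
    exact zero_ne_one h5
  have hq0 : Q.map (MvPolynomial.eval β) ≠ 0 := by
    intro h
    have := congrArg (fun q => q.coeff Q.natDegree) h
    simp only [Polynomial.coeff_map, Polynomial.coeff_zero] at this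
    exact hlc this
  obtain ⟨κ, hκ⟩ := mem_range_of_isAlgebraic (K := K) (y := φ ⟨x, hx⟩)
    ⟨Q.map (MvPolynomial.eval β), hq0, hrel'⟩
  exact ⟨κ, hκ.symm⟩

end AlgOver

section Rig

variable {K L : Type*} [Field K] [Field L] [Algebra ℚ K] [Algebra ℚ L] [Algebra K L]

theorem exists_coeff_ne_zero {A : Type*} [CommRing A] {x : LaurentSeries A} (hx : x ≠ 0) :
    ∃ n : ℤ, x.coeff n ≠ 0 := by
  by_contra h
  push Not at h
  exact hx (HahnSeries.ext (funext h))

omit [Algebra K L] in
theorem ratCast_comp_eq (ψ : K →+* L) : ψ.comp (algebraMap ℚ K) = algebraMap ℚ L :=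
  Subsingleton.elim _ _

end Rig

section Rig2

variable {K L : Type*} [Field K] [Field L] [Algebra ℚ K] [Algebra ℚ L] [Algebra K L]

omit [Algebra ℚ K] in
/-- Pigeonhole + conjugation: there is an automorphism `τ` of `L` over `K` with
`s ∪ τ s` algebraically independent and `f / τ f` a `p`-th power. -/
theorem exists_tau [IsAlgClosed L]
    (htr : ∀ n : ℕ, ∃ t : Fin n → L, AlgebraicIndependent K t)
    (F₀ : IntermediateField ℚ (LaurentSeries ℚ)) (p : ℕ)
    (f : LaurentSeries L)
    (X : Type*) [Finite X] (c : (L ≃ₐ[ℚ] L) → X)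
    (hc : ∀ σ τ : L ≃ₐ[ℚ] L, (∀ a : K, σ (algebraMap K L a) = algebraMap K L a) →
      (∀ a : K, τ (algebraMap K L a) = algebraMap K L a) → c σ = c τ →
        ∃ w ∈ laurentBaseChange L F₀,
          coeffMap (σ : L →+* L) f = coeffMap (τ : L →+* L) f * w ^ p)
    {d : ℕ} (s : Fin d → L) (hs : AlgebraicIndependent K s) :
    ∃ (τ : L ≃ₐ[K] L), AlgebraicIndependent K (Sum.elim (fun a => τ (s a)) s) ∧
      ∃ w ∈ laurentBaseChange L F₀, f = coeffMap (τ : L →+* L) f * w ^ p := by
  classical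
  obtain ⟨σ, hσ⟩ := exists_indep_conjugates htr s hs (Nat.card X + 1)
  let σQ : Fin (Nat.card X + 1) → (L ≃ₐ[ℚ] L) := fun i =>
    AlgEquiv.ofRingEquiv (f := (σ i).toRingEquiv) (fun q =>
      RingHom.map_rat_algebraMap ((σ i : L ≃ₐ[K] L) : L →+* L) q)
  obtain ⟨i, j, hij, hcij⟩ : ∃ i j, i ≠ j ∧ c (σQ i) = c (σQ j) := by
    by_contra hcon
    push Not at hcon
    have hinj : Function.Injective fun i => c (σQ i) := fun i j h => by
      by_contra hne
      exact hcon i j hne h
    have := Nat.card_le_card_of_injective _ hinj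
    simp at this
  obtain ⟨w, hw, hwf⟩ := hc (σQ i) (σQ j) (fun a => (σ i).commutes a) (fun a => (σ j).commutes a)
    hcij
  let τ : L ≃ₐ[K] L := (σ j).trans (σ i).symm
  refine ⟨τ, ?_, coeffMap (((σQ i).symm : L ≃ₐ[ℚ] L) : L →+* L) w,
    coeffMap_mem_laurentBaseChange (σQ i).symm hw, ?_⟩
  · let g : Fin d ⊕ Fin d → Fin (Nat.card X + 1) × Fin d :=
      Sum.elim (fun a => (j, a)) (fun a => (i, a))
    have hg : Function.Injective g := by
      rintro (a | a) (b | b) h
      · simp only [g, Sum.elim_inl, Prod.mk.injEq, true_and] at h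
        rw [h]
      · simp only [g, Sum.elim_inl, Sum.elim_inr, Prod.mk.injEq] at h
        exact absurd h.1.symm hij
      · simp only [g, Sum.elim_inl, Sum.elim_inr, Prod.mk.injEq] at h
        exact absurd h.1 hij
      · simp only [g, Sum.elim_inr, Prod.mk.injEq, true_and] at h
        rw [h]
    have h1 := (hσ.comp g hg).map' (f := ((σ i).symm : L ≃ₐ[K] L).toAlgHom) (σ i).symm.injective
    convert h1 using 1
    funext x
    rcases x with a | a
    · rfl
    · simp [g]
  · have := congrArg (coeffMap (((σQ i).symm : L ≃ₐ[ℚ] L) : L →+* L)) hwf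
    rw [map_mul, map_pow, coeffMap_coeffMap, coeffMap_coeffMap] at this
    have h1 : (((σQ i).symm : L ≃ₐ[ℚ] L) : L →+* L).comp ((σQ i : L ≃ₐ[ℚ] L) : L →+* L) =
        RingHom.id L := by
      ext x
      exact (σ i).symm_apply_apply x
    have h2 : (((σQ i).symm : L ≃ₐ[ℚ] L) : L →+* L).comp ((σQ j : L ≃ₐ[ℚ] L) : L →+* L) =
        (τ : L →+* L) := by
      ext x
      rfl
    rw [h1, coeffMap_id, h2] at this
    exact this

omit [Algebra ℚ K] [Algebra ℚ L] [Algebra K L] in
/-- Nonvanishing of a specialised series from an invertible coefficient. -/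
theorem coeffMap_ne_zero_of_inv_mem {R : Subring L} (φ : R →+* L) (x : LaurentSeries R) (n : ℤ)
    (h0 : ((x.coeff n : R) : L) ≠ 0) (hinv : ((x.coeff n : R) : L)⁻¹ ∈ R) :
    coeffMap φ x ≠ 0 := by
  intro h
  have h1 : x.coeff n * ⟨_, hinv⟩ = 1 := by
    apply Subtype.val_injective
    show ((x.coeff n : R) : L) * ((x.coeff n : R) : L)⁻¹ = 1
    exact mul_inv_cancel₀ h0
  have h2 := congrArg φ h1
  rw [map_mul, map_one] at h2
  have h3 : φ (x.coeff n) = 0 := by
    have := congrArg (fun z => z.coeff n) h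
    simpa using this
  rw [h3, zero_mul] at h2
  exact zero_ne_one h2

/-- **(RIG)**, concrete form. -/
theorem rig [IsAlgClosed K] [IsAlgClosed L]
    (htr : ∀ n : ℕ, ∃ t : Fin n → L, AlgebraicIndependent K t)
    (F₀ : IntermediateField ℚ (LaurentSeries ℚ)) (p : ℕ)
    (f : LaurentSeries L) (hf : f ∈ laurentBaseChange L F₀) (hf0 : f ≠ 0)
    (X : Type*) [Finite X] (c : (L ≃ₐ[ℚ] L) → X)
    (hc : ∀ σ τ : L ≃ₐ[ℚ] L, (∀ a : K, σ (algebraMap K L a) = algebraMap K L a) →
      (∀ a : K, τ (algebraMap K L a) = algebraMap K L a) → c σ = c τ →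
        ∃ w ∈ laurentBaseChange L F₀,
          coeffMap (σ : L →+* L) f = coeffMap (τ : L →+* L) f * w ^ p) :
    ∃ u₀ ∈ laurentBaseChange K F₀, ∃ w ∈ laurentBaseChange L F₀,
      f = coeffMap (algebraMap K L) u₀ * w ^ p := by
  classical
  -- Step 1: `f = a / b`
  obtain ⟨ιa, _, la, ma, ιb, _, lb, mb, hma, hmb, hb0, hfab⟩ := exists_combo_div L F₀ hf
  have ha0 : combo (algebraMap ℚ L) la ma ≠ 0 := by
    intro h
    apply hf0
    rw [hfab, h, zero_div]
  -- Step 2: a transcendence basis of the coefficients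
  obtain ⟨B, hB⟩ := (AlgebraicIndependent.matroid K L).exists_isBasis (Set.range la ∪ Set.range lb)
  rw [AlgebraicIndependent.matroid_isBasis_iff] at hB
  obtain ⟨hBind, hBS, hBalg⟩ := hB
  have hBfin : B.Finite := ((Set.finite_range la).union (Set.finite_range lb)).subset hBS
  haveI : Finite B := hBfin.to_subtype
  let e : B ≃ Fin (Nat.card B) := Finite.equivFin B
  let s : Fin (Nat.card B) → L := fun i => ((e.symm i : B) : L)
  have hs : AlgebraicIndependent K s := hBind.comp e.symm e.symm.injective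
  have hs_range : Set.range s = B := by
    ext x
    constructor
    · rintro ⟨i, rfl⟩
      exact (e.symm i).2
    · intro hx
      exact ⟨e ⟨x, hx⟩, by
        show ((e.symm (e ⟨x, hx⟩) : B) : L) = x
        rw [Equiv.symm_apply_apply]⟩
  have halgR : ∀ l ∈ Set.range la ∪ Set.range lb,
      IsAlgebraic (Algebra.adjoin K (Set.range s)) l := by
    rw [hs_range]; exact hBalg
  have halg : ∀ l ∈ Set.range la ∪ Set.range lb,
      ∃ Q : Polynomial (MvPolynomial (Fin (Nat.card B)) K), AlgOver s l Q := fun l hl =>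
    exists_algOver_of_isAlgebraic s hs (halgR l hl)
  choose! Qf hQf using halg
  -- Step 3: the automorphism
  obtain ⟨τ, hind2, w, hw, hfτ⟩ := exists_tau htr F₀ p f X c hc s hs
  have hτs : AlgebraicIndependent K (fun a => τ (s a)) := hind2.comp Sum.inl Sum.inl_injective
  have hindR₀ : AlgebraicIndependent (Algebra.adjoin K (Set.range s)) (fun a => τ (s a)) :=
    (AlgebraicIndependent.sumElim_iff.mp hind2).2
  -- Step 4: the field `kF` of elements algebraic over `K[s]`
  let kF : IntermediateField K L :=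
    ((Subalgebra.algebraicClosure (Algebra.adjoin K (Set.range s)) L).restrictScalars
      K).toIntermediateField (fun x hx => IsAlgebraic.inv_iff.mpr hx)
  have hmemk : ∀ x : L, x ∈ kF ↔ IsAlgebraic (Algebra.adjoin K (Set.range s)) x :=
    fun x => Iff.rfl
  letI algR₀k : Algebra (Algebra.adjoin K (Set.range s)) kF := RingHom.toAlgebra
    { toFun := fun x => ⟨algebraMap _ L x, (hmemk _).mpr (isAlgebraic_algebraMap x)⟩
      map_one' := rfl
      map_mul' := fun _ _ => rfl
      map_zero' := rfl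
      map_add' := fun _ _ => rfl }
  haveI : IsScalarTower (Algebra.adjoin K (Set.range s)) kF L :=
    IsScalarTower.of_algebraMap_eq fun _ => rfl
  haveI : Algebra.IsAlgebraic (Algebra.adjoin K (Set.range s)) kF :=
    ⟨fun y => (isAlgebraic_algebraMap_iff (A := L) (algebraMap kF L).injective).mp
      ((hmemk _).mp y.2)⟩
  have hind_k : AlgebraicIndependent kF (fun a => τ (s a)) := hindR₀.extendScalars kF
  -- Step 5: `w = c / d` and the polynomial identity
  obtain ⟨ιc, _, lc, mc, ιd, _, ld, md, hmc, hmd, hd0, hwcd⟩ := exists_combo_div L F₀ hw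
  have hτQ : (τ : L →+* L).comp (algebraMap ℚ L) = algebraMap ℚ L := Subsingleton.elim _ _
  have hτa : coeffMap (τ : L →+* L) (combo (algebraMap ℚ L) la ma) =
      combo (algebraMap ℚ L) (fun i => τ (la i)) ma := coeffMap_combo _ _ _ hτQ la ma
  have hτb : coeffMap (τ : L →+* L) (combo (algebraMap ℚ L) lb mb) =
      combo (algebraMap ℚ L) (fun i => τ (lb i)) mb := coeffMap_combo _ _ _ hτQ lb mb
  have hτb0 : combo (algebraMap ℚ L) (fun i => τ (lb i)) mb ≠ 0 := by
    rw [← hτb]
    intro h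
    exact hb0 (coeffMap_injective (ψ := (τ : L →+* L)) τ.injective (by rw [h, map_zero]))
  have hid : combo (algebraMap ℚ L) la ma * combo (algebraMap ℚ L) (fun i => τ (lb i)) mb *
        combo (algebraMap ℚ L) ld md ^ p =
      combo (algebraMap ℚ L) (fun i => τ (la i)) ma * combo (algebraMap ℚ L) lb mb *
        combo (algebraMap ℚ L) lc mc ^ p := by
    have h := hfτ
    rw [hfab, map_div₀, hτa, hτb, hwcd, div_pow] at h
    field_simp at h
    linear_combination h
  obtain ⟨n₁, hn₁⟩ := exists_coeff_ne_zero hτb0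
  obtain ⟨n₂, hn₂⟩ := exists_coeff_ne_zero hd0
  -- Step 6: the finite set `T` and the specialisation
  let T : Finset L :=
    Finset.univ.image (fun i => τ (la i)) ∪ Finset.univ.image (fun i => τ (lb i)) ∪
      Finset.univ.image lc ∪ Finset.univ.image ld ∪
      {(combo (algebraMap ℚ L) (fun i => τ (lb i)) mb).coeff n₁,
        (combo (algebraMap ℚ L) ld md).coeff n₂} ∪
      Finset.univ.image (fun i => MvPolynomial.aeval (fun a => τ (s a)) (Qf (la i)).leadingCoeff) ∪
      Finset.univ.image (fun i => MvPolynomial.aeval (fun a => τ (s a)) (Qf (lb i)).leadingCoeff)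
  have hK₀ : (Set.range (algebraMap K kF)).Infinite :=
    Set.infinite_range_of_injective (algebraMap K kF).injective
  obtain ⟨R, φ, hφk, hT, hTinv, hφt⟩ :=
    exists_specialization (Set.range (algebraMap K kF)) hK₀ (fun a => τ (s a)) hind_k T
  have hφK : ∀ c : K, ∃ h : algebraMap K L c ∈ R, φ ⟨_, h⟩ = algebraMap K L c :=
    fun c => hφk (algebraMap K kF c)
  have hβ : ∀ a, ∃ β : K, ∃ h : τ (s a) ∈ R, φ ⟨τ (s a), h⟩ = algebraMap K L β := by
    intro a
    obtain ⟨h, κ, ⟨β, rfl⟩, hκ⟩ := hφt a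
    exact ⟨β, h, hκ⟩
  choose β hβ' using hβ
  have hla_k : ∀ i, ∃ h : la i ∈ R, φ ⟨la i, h⟩ = la i := fun i =>
    hφk ⟨la i, (hmemk _).mpr (halgR _ (Or.inl ⟨i, rfl⟩))⟩
  have hlb_k : ∀ i, ∃ h : lb i ∈ R, φ ⟨lb i, h⟩ = lb i := fun i =>
    hφk ⟨lb i, (hmemk _).mpr (halgR _ (Or.inr ⟨i, rfl⟩))⟩
  have hla : ∀ i, la i ∈ R := fun i => (hla_k i).1
  have hlb : ∀ i, lb i ∈ R := fun i => (hlb_k i).1
  have hτla : ∀ i, τ (la i) ∈ R := fun i => hT _ (by simp [T])
  have hτlb : ∀ i, τ (lb i) ∈ R := fun i => hT _ (by simp [T])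
  have hlc : ∀ i, lc i ∈ R := fun i => hT _ (by simp [T])
  have hld : ∀ i, ld i ∈ R := fun i => hT _ (by simp [T])
  have hκa : ∀ i, ∃ κ : K, φ ⟨τ (la i), hτla i⟩ = algebraMap K L κ := fun i =>
    spec_algOver (fun a => τ (s a)) hτs (τ (la i)) (Qf (la i))
      ((hQf _ (Or.inl ⟨i, rfl⟩)).map τ) R φ hφK β hβ' (hτla i) (hTinv _ (by simp [T]))
  have hκb : ∀ i, ∃ κ : K, φ ⟨τ (lb i), hτlb i⟩ = algebraMap K L κ := fun i =>
    spec_algOver (fun a => τ (s a)) hτs (τ (lb i)) (Qf (lb i))
      ((hQf _ (Or.inr ⟨i, rfl⟩)).map τ) R φ hφK β hβ' (hτlb i) (hTinv _ (by simp [T]))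
  choose κa hκa' using hκa
  choose κb hκb' using hκb
  -- Step 7: lift the identity to `R` and specialise
  let ρR : ℚ →+* R := (algebraMap ℚ L).codRestrict R (fun q => by
    have : algebraMap ℚ L q = algebraMap K L (algebraMap ℚ K q) :=
      (RingHom.map_rat_algebraMap (algebraMap K L) q).symm
    rw [this]
    exact (hφK _).1)
  have hρ1 : R.subtype.comp ρR = algebraMap ℚ L := Subsingleton.elim _ _
  have hρ2 : φ.comp ρR = algebraMap ℚ L := Subsingleton.elim _ _
  have key1 : ∀ {ι : Type} [Fintype ι] (l : ι → L) (hl : ∀ i, l i ∈ R) (m : ι → LaurentSeries ℚ),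
      coeffMap R.subtype (combo ρR (fun i => (⟨l i, hl i⟩ : R)) m) =
        combo (algebraMap ℚ L) l m := fun l hl m =>
    coeffMap_combo R.subtype ρR _ hρ1 _ m
  have key2 : ∀ {ι : Type} [Fintype ι] (l : ι → L) (hl : ∀ i, l i ∈ R) (m : ι → LaurentSeries ℚ),
      coeffMap φ (combo ρR (fun i => (⟨l i, hl i⟩ : R)) m) =
        combo (algebraMap ℚ L) (fun i => φ ⟨l i, hl i⟩) m := fun l hl m =>
    coeffMap_combo φ ρR _ hρ2 _ m
  have hidR : combo ρR (fun i => (⟨la i, hla i⟩ : R)) ma *
        combo ρR (fun i => (⟨τ (lb i), hτlb i⟩ : R)) mb *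
        combo ρR (fun i => (⟨ld i, hld i⟩ : R)) md ^ p =
      combo ρR (fun i => (⟨τ (la i), hτla i⟩ : R)) ma *
        combo ρR (fun i => (⟨lb i, hlb i⟩ : R)) mb *
        combo ρR (fun i => (⟨lc i, hlc i⟩ : R)) mc ^ p := by
    apply coeffMap_injective (ψ := R.subtype) Subtype.val_injective
    rw [map_mul, map_mul, map_pow, map_mul, map_mul, map_pow, key1 la hla, key1 _ hτlb,
      key1 ld hld, key1 _ hτla, key1 lb hlb, key1 lc hlc]
    exact hid
  have hidφ := congrArg (coeffMap φ) hidR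
  rw [map_mul, map_mul, map_pow, map_mul, map_mul, map_pow, key2 la hla, key2 _ hτlb,
    key2 ld hld, key2 _ hτla, key2 lb hlb, key2 lc hlc] at hidφ
  have e1 : (fun i => φ ⟨la i, hla i⟩) = la := funext fun i => (hla_k i).2
  have e2 : (fun i => φ ⟨lb i, hlb i⟩) = lb := funext fun i => (hlb_k i).2
  have e3 : (fun i => φ ⟨τ (la i), hτla i⟩) = fun i => algebraMap K L (κa i) := funext hκa'
  have e4 : (fun i => φ ⟨τ (lb i), hτlb i⟩) = fun i => algebraMap K L (κb i) := funext hκb'
  rw [e1, e2, e3, e4] at hidφ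
  -- nonvanishing of the two specialised denominators
  have hB₀ : combo (algebraMap ℚ L) (fun i => algebraMap K L (κb i)) mb ≠ 0 := by
    rw [← e4, ← key2 _ hτlb]
    refine coeffMap_ne_zero_of_inv_mem φ _ n₁ ?_ ?_
    · have : (((combo ρR (fun i => (⟨τ (lb i), hτlb i⟩ : R)) mb).coeff n₁ : R) : L) =
          (combo (algebraMap ℚ L) (fun i => τ (lb i)) mb).coeff n₁ := by
        rw [← key1 _ hτlb]; rfl
      rw [this]; exact hn₁
    · have : (((combo ρR (fun i => (⟨τ (lb i), hτlb i⟩ : R)) mb).coeff n₁ : R) : L) =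
          (combo (algebraMap ℚ L) (fun i => τ (lb i)) mb).coeff n₁ := by
        rw [← key1 _ hτlb]; rfl
      rw [this]; exact hTinv _ (by simp [T])
  have hD : combo (algebraMap ℚ L) (fun i => φ ⟨ld i, hld i⟩) md ≠ 0 := by
    rw [← key2 ld hld]
    refine coeffMap_ne_zero_of_inv_mem φ _ n₂ ?_ ?_
    · have : (((combo ρR (fun i => (⟨ld i, hld i⟩ : R)) md).coeff n₂ : R) : L) =
          (combo (algebraMap ℚ L) ld md).coeff n₂ := by
        rw [← key1 ld hld]; rfl
      rw [this]; exact hn₂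
    · have : (((combo ρR (fun i => (⟨ld i, hld i⟩ : R)) md).coeff n₂ : R) : L) =
          (combo (algebraMap ℚ L) ld md).coeff n₂ := by
        rw [← key1 ld hld]; rfl
      rw [this]; exact hTinv _ (by simp [T])
  -- conclusion
  refine ⟨combo (algebraMap ℚ K) κa ma / combo (algebraMap ℚ K) κb mb,
    div_mem (combo_mem_laurentBaseChange K F₀ κa ma hma) (combo_mem_laurentBaseChange K F₀ κb mb hmb),
    combo (algebraMap ℚ L) (fun i => φ ⟨lc i, hlc i⟩) mc /
      combo (algebraMap ℚ L) (fun i => φ ⟨ld i, hld i⟩) md,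
    div_mem (combo_mem_laurentBaseChange L F₀ _ mc hmc) (combo_mem_laurentBaseChange L F₀ _ md hmd),
    ?_⟩
  rw [map_div₀, coeffMap_combo (algebraMap K L) (algebraMap ℚ K) (algebraMap ℚ L)
      (ratCast_comp_eq _) κa ma,
    coeffMap_combo (algebraMap K L) (algebraMap ℚ K) (algebraMap ℚ L) (ratCast_comp_eq _) κb mb,
    hfab, div_pow, div_mul_div_comm, div_eq_div_iff hb0 (mul_ne_zero hB₀ (pow_ne_zero _ hD))]
  linear_combination hidφ

end Rig2

end

end Fermat.Agent.S42.H78
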