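/-
helper78 — Program A (S29/S42), package (2): KUMMER-INV in concrete Prelude form, and the
transcendence-degree hypothesis `htr` of `rig` for `ℂ` over a countable field.
-/
import Mathlib
import Fermat.Prelude.Def_ModularCurve_ArithmeticGalois
import Fermat.Agent.S42.H78.Rig

set_option autoImplicit false

namespace Fermat.Agent.S42.H78

open ModularCurve HahnSeries

noncomputable section

universe u

/-- `ℂ` contains arbitrarily large finite algebraically independent families over any
countable subfield (hypothesis `htr` of `rig`). -/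
theorem exists_algebraicIndependent_complex (K : Type u) [Field K] [Algebra K ℂ] [Countable K] :
    ∀ n : ℕ, ∃ t : Fin n → ℂ, AlgebraicIndependent K t := by
  intro n
  obtain ⟨𝔅, h𝔅⟩ := exists_isTranscendenceBasis K ℂ
  have hinf : 𝔅.Infinite := by
    intro hfin
    haveI := hfin.to_subtype
    have h := IsAlgClosed.cardinal_le_max_transcendence_basis (Subtype.val : 𝔅 → ℂ) h𝔅
    have h2 : Cardinal.mk 𝔅 ≤ Cardinal.aleph0 := Cardinal.mk_le_aleph0
    have h3 : Cardinal.lift.{u} (Cardinal.mk ℂ) ≤ Cardinal.aleph0 := by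
      refine h.trans (max_le (max_le ?_ ?_) le_rfl)
      · rw [Cardinal.lift_le_aleph0]; exact Cardinal.mk_le_aleph0
      · rw [Cardinal.lift_le_aleph0]; exact h2
    rw [Cardinal.lift_le_aleph0, Cardinal.mk_complex] at h3
    exact absurd h3 (not_le.mpr Cardinal.aleph0_lt_continuum)
  haveI := hinf.to_subtype
  refine ⟨fun i => ((Infinite.natEmbedding 𝔅 i.1 : 𝔅) : ℂ), ?_⟩
  exact h𝔅.1.comp (fun i : Fin n => Infinite.natEmbedding 𝔅 i.1)
    (fun i j h => Fin.ext ((Infinite.natEmbedding 𝔅).injective h))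

/-- A field algebraic over `ℚ` is countable. -/
theorem countable_of_isAlgebraic_rat (K : Type u) [Field K] [Algebra ℚ K]
    [Algebra.IsAlgebraic ℚ K] : Countable K := by
  have h := Algebra.IsAlgebraic.lift_cardinalMk_le_max ℚ K
  rw [← Cardinal.mk_le_aleph0_iff, ← Cardinal.lift_le_aleph0]
  refine h.trans (max_le ?_ le_rfl)
  rw [Cardinal.lift_le_aleph0]
  exact Cardinal.mk_le_aleph0

instance countable_algebraicClosure_rat : Countable (AlgebraicClosure ℚ) :=
  haveI : Algebra.IsAlgebraic ℚ (AlgebraicClosure ℚ) := AlgebraicClosure.isAlgebraic ℚ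
  countable_of_isAlgebraic_rat (AlgebraicClosure ℚ)

/-- Hypothesis `htr` of `rig` for `L = ℂ`, `K = AlgebraicClosure ℚ` and the algebra structure
given by any embedding `ι`. -/
theorem htr_of_ringHom (ι : AlgebraicClosure ℚ →+* ℂ) :
    letI := ι.toAlgebra
    ∀ n : ℕ, ∃ t : Fin n → ℂ, AlgebraicIndependent (AlgebraicClosure ℚ) t :=
  letI := ι.toAlgebra
  exists_algebraicIndependent_complex (AlgebraicClosure ℚ)

section Kummer

variable {K L : Type*} [Field K] [Field L] [Algebra ℚ K] [Algebra ℚ L] [Algebra K L]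

/-- **(KUMMER-INV)**, concrete form: an element of `laurentBaseChange K F₀` which becomes a
constant times a `p`-th power in `laurentBaseChange L F₀` is a `p`-th power in
`laurentBaseChange K F₀` (`K` algebraically closed absorbs the constant). -/
theorem kummer_inv [IsAlgClosed K] [IsAlgClosed L]
    (F₀ : IntermediateField ℚ (LaurentSeries ℚ)) (p : ℕ) (hp : 0 < p)
    (u : LaurentSeries K) (hu : u ∈ laurentBaseChange K F₀) (hu0 : u ≠ 0)
    (a : L) (w : LaurentSeries L) (hw : w ∈ laurentBaseChange L F₀)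
    (h : coeffMap (algebraMap K L) u = algebraMap L (LaurentSeries L) a * w ^ p) :
    ∃ v ∈ laurentBaseChange K F₀, u = v ^ p := by
  classical
  rw [algebraMap_laurentSeries_eq_single] at h
  have hιinj : Function.Injective (coeffMap (algebraMap K L)) :=
    coeffMap_injective (algebraMap K L).injective
  have hιQ : (algebraMap K L).comp (algebraMap ℚ K) = algebraMap ℚ L := ratCast_comp_eq _
  -- `u = a₁ / b₁`, `w = c / d`
  obtain ⟨ιa, _, κa, ma, ιb, _, κb, mb, hma, hmb, hb0, huab⟩ := exists_combo_div K F₀ hu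
  obtain ⟨ιc, _, lc, mc, ιd, _, ld, md, hmc, hmd, hd0, hwcd⟩ := exists_combo_div L F₀ hw
  have hιa : coeffMap (algebraMap K L) (combo (algebraMap ℚ K) κa ma) =
      combo (algebraMap ℚ L) (fun i => algebraMap K L (κa i)) ma := coeffMap_combo _ _ _ hιQ κa ma
  have hιb : coeffMap (algebraMap K L) (combo (algebraMap ℚ K) κb mb) =
      combo (algebraMap ℚ L) (fun i => algebraMap K L (κb i)) mb := coeffMap_combo _ _ _ hιQ κb mb
  have hιb0 : combo (algebraMap ℚ L) (fun i => algebraMap K L (κb i)) mb ≠ 0 := by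
    rw [← hιb]
    intro h0
    exact hb0 (hιinj (by rw [h0, map_zero]))
  have hid : combo (algebraMap ℚ L) (fun i => algebraMap K L (κa i)) ma *
        combo (algebraMap ℚ L) ld md ^ p =
      HahnSeries.single 0 a * combo (algebraMap ℚ L) (fun i => algebraMap K L (κb i)) mb *
        combo (algebraMap ℚ L) lc mc ^ p := by
    have h' := h
    rw [huab, map_div₀, hιa, hιb, hwcd, div_pow] at h'
    field_simp at h'
    linear_combination h'
  -- transcendence basis of the coefficients
  obtain ⟨B, hB⟩ := (AlgebraicIndependent.matroid K L).exists_isBasis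
    (Set.range lc ∪ Set.range ld ∪ {a})
  rw [AlgebraicIndependent.matroid_isBasis_iff] at hB
  obtain ⟨hBind, hBS, hBalg⟩ := hB
  have hBfin : B.Finite :=
    (((Set.finite_range lc).union (Set.finite_range ld)).union (Set.finite_singleton a)).subset hBS
  haveI : Finite B := hBfin.to_subtype
  let e : B ≃ Fin (Nat.card B) := Finite.equivFin B
  let s : Fin (Nat.card B) → L := fun i => ((e.symm i : B) : L)
  have hs : AlgebraicIndependent K s := hBind.comp e.symm e.symm.injective
  have hs_range : Set.range s = B := by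
    ext x
    constructor
    · rintro ⟨i, rfl⟩
      exact (e.symm i).2
    · intro hx
      exact ⟨e ⟨x, hx⟩, by
        show ((e.symm (e ⟨x, hx⟩) : B) : L) = x
        rw [Equiv.symm_apply_apply]⟩
  have halgR : ∀ l ∈ Set.range lc ∪ Set.range ld ∪ {a},
      IsAlgebraic (Algebra.adjoin K (Set.range s)) l := by
    rw [hs_range]; exact hBalg
  have halg : ∀ l ∈ Set.range lc ∪ Set.range ld ∪ {a},
      ∃ Q : Polynomial (MvPolynomial (Fin (Nat.card B)) K), AlgOver s l Q := fun l hl =>
    exists_algOver_of_isAlgebraic s hs (halgR l hl)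
  choose! Qf hQf using halg
  obtain ⟨n₂, hn₂⟩ := exists_coeff_ne_zero hd0
  -- the specialisation
  let T : Finset L :=
    Finset.univ.image lc ∪ Finset.univ.image ld ∪ {a, (combo (algebraMap ℚ L) ld md).coeff n₂} ∪
      Finset.univ.image (fun i => MvPolynomial.aeval s (Qf (lc i)).leadingCoeff) ∪
      Finset.univ.image (fun i => MvPolynomial.aeval s (Qf (ld i)).leadingCoeff) ∪
      {MvPolynomial.aeval s (Qf a).leadingCoeff}
  obtain ⟨R, φ, hφK, hT, hTinv, hφt⟩ :=
    exists_specialization (k := K) Set.univ Set.infinite_univ s hs T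
  have hβ : ∀ i, ∃ β : K, ∃ h : s i ∈ R, φ ⟨s i, h⟩ = algebraMap K L β := by
    intro i
    obtain ⟨h, β, -, hβ⟩ := hφt i
    exact ⟨β, h, hβ⟩
  choose β hβ' using hβ
  have hlc : ∀ i, lc i ∈ R := fun i => hT _ (by simp [T])
  have hld : ∀ i, ld i ∈ R := fun i => hT _ (by simp [T])
  have haR : a ∈ R := hT _ (by simp [T])
  have hκc : ∀ i, ∃ κ : K, φ ⟨lc i, hlc i⟩ = algebraMap K L κ := fun i =>
    spec_algOver s hs (lc i) (Qf (lc i)) (hQf _ (Or.inl (Or.inl ⟨i, rfl⟩))) R φ hφK β hβ' (hlc i)
      (hTinv _ (by simp [T]))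
  have hκd : ∀ i, ∃ κ : K, φ ⟨ld i, hld i⟩ = algebraMap K L κ := fun i =>
    spec_algOver s hs (ld i) (Qf (ld i)) (hQf _ (Or.inl (Or.inr ⟨i, rfl⟩))) R φ hφK β hβ' (hld i)
      (hTinv _ (by simp [T]))
  obtain ⟨α, hα⟩ : ∃ κ : K, φ ⟨a, haR⟩ = algebraMap K L κ :=
    spec_algOver s hs a (Qf a) (hQf _ (Or.inr rfl)) R φ hφK β hβ' haR (hTinv _ (by simp [T]))
  choose κc hκc' using hκc
  choose κd hκd' using hκd
  -- lift the identity to `R` and specialise
  let ρR : ℚ →+* R := (algebraMap ℚ L).codRestrict R (fun q => by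
    have : algebraMap ℚ L q = algebraMap K L (algebraMap ℚ K q) :=
      (RingHom.map_rat_algebraMap (algebraMap K L) q).symm
    rw [this]
    exact (hφK _).1)
  have hρ1 : R.subtype.comp ρR = algebraMap ℚ L := Subsingleton.elim _ _
  have hρ2 : φ.comp ρR = algebraMap ℚ L := Subsingleton.elim _ _
  have key1 : ∀ {ι : Type} [Fintype ι] (l : ι → L) (hl : ∀ i, l i ∈ R) (m : ι → LaurentSeries ℚ),
      coeffMap R.subtype (combo ρR (fun i => (⟨l i, hl i⟩ : R)) m) =
        combo (algebraMap ℚ L) l m := fun l hl m =>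
    coeffMap_combo R.subtype ρR _ hρ1 _ m
  have key2 : ∀ {ι : Type} [Fintype ι] (l : ι → L) (hl : ∀ i, l i ∈ R) (m : ι → LaurentSeries ℚ),
      coeffMap φ (combo ρR (fun i => (⟨l i, hl i⟩ : R)) m) =
        combo (algebraMap ℚ L) (fun i => φ ⟨l i, hl i⟩) m := fun l hl m =>
    coeffMap_combo φ ρR _ hρ2 _ m
  have hκaR : ∀ i, algebraMap K L (κa i) ∈ R := fun i => (hφK _).1
  have hκbR : ∀ i, algebraMap K L (κb i) ∈ R := fun i => (hφK _).1
  have hidR : combo ρR (fun i => (⟨algebraMap K L (κa i), hκaR i⟩ : R)) ma *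
        combo ρR (fun i => (⟨ld i, hld i⟩ : R)) md ^ p =
      HahnSeries.single 0 (⟨a, haR⟩ : R) *
        combo ρR (fun i => (⟨algebraMap K L (κb i), hκbR i⟩ : R)) mb *
        combo ρR (fun i => (⟨lc i, hlc i⟩ : R)) mc ^ p := by
    apply coeffMap_injective (ψ := R.subtype) Subtype.val_injective
    rw [map_mul, map_pow, map_mul, map_mul, map_pow, coeffMap_single, key1 _ hκaR, key1 ld hld,
      key1 _ hκbR, key1 lc hlc]
    exact hid
  have hidφ := congrArg (coeffMap φ) hidR
  rw [map_mul, map_pow, map_mul, map_mul, map_pow, coeffMap_single, key2 _ hκaR, key2 ld hld,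
    key2 _ hκbR, key2 lc hlc] at hidφ
  have e1 : (fun i => φ ⟨algebraMap K L (κa i), hκaR i⟩) = fun i => algebraMap K L (κa i) :=
    funext fun i => (hφK _).2
  have e2 : (fun i => φ ⟨algebraMap K L (κb i), hκbR i⟩) = fun i => algebraMap K L (κb i) :=
    funext fun i => (hφK _).2
  have e3 : (fun i => φ ⟨lc i, hlc i⟩) = fun i => algebraMap K L (κc i) := funext hκc'
  have e4 : (fun i => φ ⟨ld i, hld i⟩) = fun i => algebraMap K L (κd i) := funext hκd'
  rw [e1, e2, e3, e4, hα] at hidφ
  have hidK : combo (algebraMap ℚ K) κa ma * combo (algebraMap ℚ K) κd md ^ p =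
      HahnSeries.single 0 α * combo (algebraMap ℚ K) κb mb * combo (algebraMap ℚ K) κc mc ^ p := by
    apply hιinj
    rw [map_mul, map_pow, map_mul, map_mul, map_pow, coeffMap_single,
      coeffMap_combo _ _ _ hιQ κa ma, coeffMap_combo _ _ _ hιQ κd md,
      coeffMap_combo _ _ _ hιQ κb mb, coeffMap_combo _ _ _ hιQ κc mc]
    exact hidφ
  have hD : combo (algebraMap ℚ L) (fun i => algebraMap K L (κd i)) md ≠ 0 := by
    rw [← e4, ← key2 ld hld]
    have hcoe : (((combo ρR (fun i => (⟨ld i, hld i⟩ : R)) md).coeff n₂ : R) : L) =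
        (combo (algebraMap ℚ L) ld md).coeff n₂ := by
      rw [← key1 ld hld]; rfl
    refine coeffMap_ne_zero_of_inv_mem φ _ n₂ ?_ ?_
    · rw [hcoe]; exact hn₂
    · rw [hcoe]; exact hTinv _ (by simp [T])
  have hd₀ : combo (algebraMap ℚ K) κd md ≠ 0 := by
    intro h0
    apply hD
    rw [← coeffMap_combo _ _ _ hιQ κd md, h0, map_zero]
  obtain ⟨γ, hγ⟩ := IsAlgClosed.exists_pow_nat_eq α hp
  have hsingle : (HahnSeries.single 0 γ : LaurentSeries K) ^ p = HahnSeries.single 0 α := by
    rw [← algebraMap_laurentSeries_eq_single, ← algebraMap_laurentSeries_eq_single, ← map_pow, hγ]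
  refine ⟨HahnSeries.single 0 γ * (combo (algebraMap ℚ K) κc mc / combo (algebraMap ℚ K) κd md),
    mul_mem ?_ (div_mem (combo_mem_laurentBaseChange K F₀ κc mc hmc)
      (combo_mem_laurentBaseChange K F₀ κd md hmd)), ?_⟩
  · rw [← algebraMap_laurentSeries_eq_single]
    exact (laurentBaseChange K F₀).algebraMap_mem _
  · rw [huab, mul_pow, div_pow, hsingle, div_eq_iff hb0]
    field_simp
    linear_combination hidK

end Kummer

end

end Fermat.Agent.S42.H78
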